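import Fermat.Agent.S52.Spec.Defs
import Fermat.Agent.S51.Dup

/-!
# S52-S5 : the explicit `5`-torsion point   (owner helper21)
-/

set_option autoImplicit false
open Polynomial

namespace Fermat.Agent.S52.Spec

open WeierstrassCurve.Affine (Point)

section identities

variable {R : Type*} [CommRing R]

/-- scaled Weierstrass equation -/
theorem torsionPoint_eqn (a b w κ : R) (hw : w ^ 2 = 5)
    (hκ : 25 * κ ^ 2 = -1458 * (25 + 11 * w)) :
    125 * (κ * ty2 a b w) ^ 2 =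
      tx5 a b w ^ 3 + 25 * (-27 * kHab a b) * tx5 a b w + 125 * (54 * kTab a b) := by
  unfold tx5 ty2 kq kHab kTab
  linear_combination (5 * (2 * b ^ 3 + (-33 + 5 * w) * a * b ^ 2 + (119 - 55 * w) * a ^ 2 * b +
    (11 - 5 * w) * a ^ 3) ^ 2) * hκ + ((-2010582) * a^6 * w + (-44296956) * a^5 * b * w + (-240664770) * a^4 * b^2 * w + 36727020 * a^3 * b^3 * w + 94770 * a^2 * b^4 * w + (-192456) * a * b^5 * w + 5832 * b^6 * w + 4337550 * a^6 + 93822300 * a^5 * b + 480957750 * a^4 * b^2 + (-284674500) * a^3 * b^3 + 48296250 * a^2 * b^4 + (-3207600) * a * b^5 + 72900 * b^6) * hw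

/-- scaled duplication relation -/
theorem torsionPoint_dup (a b w : R) (hw : w ^ 2 = 5) :
    tx5 a b w ^ 4 - 50 * (-27 * kHab a b) * tx5 a b w ^ 2 - 1000 * (54 * kTab a b) * tx5 a b w +
        625 * (-27 * kHab a b) ^ 2 =
      tx5 a b (-w) * (4 * tx5 a b w ^ 3 + 100 * (-27 * kHab a b) * tx5 a b w +
        500 * (54 * kTab a b)) := by
  unfold tx5 kq kHab kTab
  linear_combination (524880 * a^8 * w^2 + 23094720 * a^7 * b * w^2 + 378963360 * a^6 * b^2 * w^2 + 2725176960 * a^5 * b^3 * w^2 + 6925791600 * a^4 * b^4 * w^2 + (-2725176960) * a^3 * b^5 * w^2 + 378963360 * a^2 * b^6 * w^2 + (-23094720) * a * b^7 * w^2 + 524880 * b^8 * w^2 + (-5248800) * a^8 * w + (-173210400) * a^7 * b * w + (-1894816800) * a^6 * b^2 * w + (-6812942400) * a^5 * b^3 * w + (-6812942400) * a^3 * b^5 * w + 1894816800 * a^2 * b^6 * w + (-173210400) * a * b^7 * w + 5248800 * b^8 * w + 13122000 * a^8 + 446148000 * a^7 * b + 5143824000 * a^6 *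 b^2 + 20890224000 * a^5 * b^3 + 7151490000 * a^4 * b^4 + (-20890224000) * a^3 * b^5 + 5143824000 * a^2 * b^6 + (-446148000) * a * b^7 + 13122000 * b^8) * hw

end identities

/-- T5 : the explicit `5`-torsion point. -/
theorem torsion_point {F : Type*} [Field F] [DecidableEq F] (h30 : (30 : F) ≠ 0) (a b w κ : F)
    (hw : w ^ 2 = 5) (hκ : 25 * κ ^ 2 = -1458 * (25 + 11 * w))
    (hΔ : kHab a b ^ 3 - kTab a b ^ 2 ≠ 0)
    (W : WeierstrassCurve F) (hW : IsShort W (-27 * kHab a b) (54 * kTab a b)) :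
    ∃ h : W.toAffine.Nonsingular (5⁻¹ * tx5 a b w) (κ * ty2 a b w),
      (5 : ℕ) • (Point.some _ _ h : W.toAffine.Point) = 0 := by
  have h2 : (2 : F) ≠ 0 := fun h => h30 (by linear_combination (15 : F) * h)
  have h3 : (3 : F) ≠ 0 := fun h => h30 (by linear_combination (10 : F) * h)
  have h5 : (5 : F) ≠ 0 := fun h => h30 (by linear_combination (6 : F) * h)
  have hw0 : w ≠ 0 := by
    rintro rfl
    exact h5 (by linear_combination -hw)
  have hq0 : kq a b ≠ 0 := by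
    intro h
    apply hΔ
    rw [klein_relation_kab, h]
    ring
  obtain ⟨x₁, hx₁def⟩ : ∃ x₁ : F, x₁ = 5⁻¹ * tx5 a b w := ⟨_, rfl⟩
  obtain ⟨x₂, hx₂def⟩ : ∃ x₂ : F, x₂ = 5⁻¹ * tx5 a b (-w) := ⟨_, rfl⟩
  have hx₁ : tx5 a b w = 5 * x₁ := by rw [hx₁def]; field_simp
  have hx₂ : tx5 a b (-w) = 5 * x₂ := by rw [hx₂def]; field_simp
  rw [← hx₁def]
  have e1 := torsionPoint_eqn a b w κ hw hκ
  have e2 := torsionPoint_dup a b w hw
  have e3 := torsionPoint_dup a b (-w) (by rw [neg_sq]; exact hw)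
  rw [neg_neg] at e3
  rw [hx₁] at e1 e2 e3
  rw [hx₂] at e2 e3
  have hb2 : W.toAffine.b₂ = 0 := by
    simp only [WeierstrassCurve.b₂, hW.a₁, hW.a₂]; ring
  have hb4 : W.toAffine.b₄ = 2 * (-27 * kHab a b) := by
    simp only [WeierstrassCurve.b₄, hW.a₁, hW.a₃, hW.a₄]; ring
  have hb6 : W.toAffine.b₆ = 4 * (54 * kTab a b) := by
    simp only [WeierstrassCurve.b₆, hW.a₃, hW.a₆]; ring
  have hb8 : W.toAffine.b₈ = -(-27 * kHab a b) ^ 2 := by
    simp only [WeierstrassCurve.b₈, hW.a₁, hW.a₂, hW.a₃, hW.a₄, hW.a₆]; ring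
  have hDisc : W.toAffine.Δ ≠ 0 := by
    have : W.toAffine.Δ = 2 ^ 6 * 3 ^ 9 * (kHab a b ^ 3 - kTab a b ^ 2) := by
      simp only [WeierstrassCurve.Δ, hb2, hb4, hb6, hb8]; ring
    rw [this]
    exact mul_ne_zero (mul_ne_zero (pow_ne_zero _ h2) (pow_ne_zero _ h3)) hΔ
  have heq : W.toAffine.Equation x₁ (κ * ty2 a b w) := by
    rw [WeierstrassCurve.Affine.equation_iff, hW.a₁, hW.a₂, hW.a₃, hW.a₄, hW.a₆]
    have h125 : (125 : F) ≠ 0 := by
      have : (125 : F) = 5 ^ 3 := by norm_num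
      rw [this]; exact pow_ne_zero _ h5
    apply mul_left_cancel₀ h125
    linear_combination e1
  have hns : W.toAffine.Nonsingular x₁ (κ * ty2 a b w) :=
    (W.toAffine.equation_iff_nonsingular_of_Δ_ne_zero hDisc).mp heq
  have h625 : (625 : F) ≠ 0 := by
    have : (625 : F) = 5 ^ 4 := by norm_num
    rw [this]; exact pow_ne_zero _ h5
  have h12 : S51.dupN W.toAffine.b₄ W.toAffine.b₆ W.toAffine.b₈ x₁ =
      x₂ * S51.dupM W.toAffine.b₂ W.toAffine.b₄ W.toAffine.b₆ x₁ := by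
    rw [hb2, hb4, hb6, hb8]
    unfold S51.dupN S51.dupM
    apply mul_left_cancel₀ h625
    linear_combination e2
  have h21 : S51.dupN W.toAffine.b₄ W.toAffine.b₆ W.toAffine.b₈ x₂ =
      x₁ * S51.dupM W.toAffine.b₂ W.toAffine.b₄ W.toAffine.b₆ x₂ := by
    rw [hb2, hb4, hb6, hb8]
    unfold S51.dupN S51.dupM
    apply mul_left_cancel₀ h625
    linear_combination e3
  have hne : x₁ ≠ x₂ := by
    intro h
    have h4 : tx5 a b w - tx5 a b (-w) = 0 := by rw [hx₁, hx₂, h]; ring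
    have h6 : 2 ^ 2 * 3 ^ 2 * (w * kq a b) = 0 := by
      rw [← h4]; unfold tx5; ring
    exact mul_ne_zero (mul_ne_zero (pow_ne_zero _ h2) (pow_ne_zero _ h3))
      (mul_ne_zero hw0 hq0) h6
  have hM : S51.dupM W.toAffine.b₂ W.toAffine.b₄ W.toAffine.b₆ x₁ ≠ 0 := by
    intro hM
    have := S51.dupN_ne_zero hns hM
    rw [h12, hM, mul_zero] at this
    exact this rfl
  exact ⟨hns, S51.five_nsmul_eq_zero hns hM h12 hne h21⟩

end Fermat.Agent.S52.Spec
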