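import Fermat.Agent.S52.Spec.SpecHom
import Fermat.Agent.S52.Spec.TorsionPoint
import Fermat.Agent.S52.Klein.ExistsUV
import Fermat.Agent.S52.NodeA

/-!
# S52, route S: the congruence `a_ℓ(E_s) ≡ a_ℓ(E) mod 5` from one explicit `5`-torsion point
-/

set_option autoImplicit false
open Polynomial

namespace Fermat.Agent.S52.Spec

open WeierstrassCurve WeierstrassCurve.Affine

section maps

variable {R S : Type*} [CommRing R] [CommRing S] (f : R →+* S)

theorem map_kH (u v : R) : f (kH u v) = kH (f u) (f v) := by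
  simp only [kH, map_add, map_sub, map_mul, map_pow, map_ofNat]

theorem map_kT (u v : R) : f (kT u v) = kT (f u) (f v) := by
  simp only [kT, map_add, map_sub, map_mul, map_pow, map_ofNat]

theorem map_kq (a b : R) : f (kq a b) = kq (f a) (f b) := by
  simp only [kq, map_add, map_sub, map_mul, map_pow, map_ofNat]

theorem map_tx5 (a b w : R) : f (tx5 a b w) = tx5 (f a) (f b) (f w) := by
  simp only [tx5, map_add, map_mul, map_pow, map_ofNat, map_neg, map_kq]

theorem map_ty2 (a b w : R) : f (ty2 a b w) = ty2 (f a) (f b) (f w) := by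
  simp only [ty2, map_add, map_sub, map_mul, map_pow, map_ofNat, map_neg]

end maps

theorem famA_zero {R : Type*} [CommRing R] (H T : R) : famA H T 0 = H := by
  rw [famA_eq, zero_mul, add_zero]

theorem famB_zero {R : Type*} [CommRing R] (H T : R) : famB H T 0 = T := by
  rw [famB_eq, zero_mul, add_zero]

/-- transport of a point along equalities of coordinates. -/
theorem some_congr {F : Type*} [Field F] {W : Affine F} {x y x' y' : F} (hx : x = x') (hy : y = y')
    (h : W.Nonsingular x y) : ∃ h' : W.Nonsingular x' y', Point.some x y h = Point.some x' y' h' := by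
  subst hx hy
  exact ⟨h, rfl⟩

section generic

variable {K : Type*} [Field K]

/-- the coefficient `a₄` of the generic member of the family. -/
noncomputable def pA (H T : K) : K[X] := -27 * famA (C H) (C T) X

/-- the coefficient `a₆` of the generic member of the family. -/
noncomputable def pB (H T : K) : K[X] := 54 * famB (C H) (C T) X

theorem eval_pA (H T t : K) : (pA H T).eval t = -27 * famA H T t := by
  have := map_famA (evalRingHom t) (C H) (C T) X
  simp only [coe_evalRingHom, eval_C, eval_X] at this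
  simp only [pA, eval_mul, eval_neg, eval_ofNat, this]

theorem eval_pB (H T t : K) : (pB H T).eval t = 54 * famB H T t := by
  have := map_famB (evalRingHom t) (C H) (C T) X
  simp only [coe_evalRingHom, eval_C, eval_X] at this
  simp only [pB, eval_mul, eval_ofNat, this]

theorem map_pA (φ : K →+* K) (H T : K) (hH : φ H = H) (hT : φ T = T) :
    (pA H T).map φ = pA H T := by
  have := map_famA (mapRingHom φ) (C H) (C T) X
  simp only [coe_mapRingHom, map_C, map_X, hH, hT] at this
  simp only [pA, Polynomial.map_mul, Polynomial.map_neg, Polynomial.map_ofNat, this]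

theorem map_pB (φ : K →+* K) (H T : K) (hH : φ H = H) (hT : φ T = T) :
    (pB H T).map φ = pB H T := by
  have := map_famB (mapRingHom φ) (C H) (C T) X
  simp only [coe_mapRingHom, map_C, map_X, hH, hT] at this
  simp only [pB, Polynomial.map_mul, Polynomial.map_ofNat, this]

/-- the generic member of the family, over `RatFunc K`. -/
noncomputable def genW (H T : K) : WeierstrassCurve (RatFunc K) :=
  ⟨0, 0, 0, io K (pA H T), io K (pB H T)⟩

theorem isShort_genW (H T : K) : IsShort (genW H T) (io K (pA H T)) (io K (pB H T)) :=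
  ⟨rfl, rfl, rfl, rfl, rfl⟩

theorem io_C_ofNat (n : ℕ) [n.AtLeastTwo] : io K (C (OfNat.ofNat n)) = OfNat.ofNat n := by
  rw [map_ofNat C n, map_ofNat (io K) n]

/-- a nonzero `5`-torsion point with polynomial coordinates on the generic member. -/
theorem exists_generic_torsion [IsAlgClosed K] [DecidableEq (RatFunc K)] (h30 : (30 : K) ≠ 0)
    (H T : K) (hΔ : H ^ 3 - T ^ 2 ≠ 0)
    (hlineH : ∀ u v t : K[X], kH (lineU u v t) (lineV u v t) = famA (kH u v) (kT u v) t)
    (hlineT : ∀ u v t : K[X], kT (lineU u v t) (lineV u v t) = famB (kH u v) (kT u v) t) :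
    ∃ (px py : K[X]) (hP : (genW H T).toAffine.Nonsingular (io K px) (io K py)),
      (5 : ℕ) • (Point.some _ _ hP : (genW H T).toAffine.Point) = 0 := by
  obtain ⟨u, v, hu, hv⟩ := exists_uv h30 H T hΔ
  obtain ⟨w, hw⟩ := IsAlgClosed.exists_pow_nat_eq (5 : K) (n := 2) (by norm_num)
  obtain ⟨κ, hκ⟩ := IsAlgClosed.exists_pow_nat_eq (-1458 * (25 + 11 * w) / 25 : K) (n := 2)
    (by norm_num)
  have h5 : (5 : K) ≠ 0 := fun h => h30 (by linear_combination (6 : K) * h)
  have h25 : (25 : K) ≠ 0 := by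
    have : (25 : K) = 5 * 5 := by norm_num
    rw [this]; exact mul_ne_zero h5 h5
  set a : K[X] := lineU (C u) (C v) X ^ 5 with ha
  set b : K[X] := lineV (C u) (C v) X ^ 5 with hb
  have hHab : kHab a b = famA (C H) (C T) X := by
    rw [ha, hb, ← kH_eq_kHab, hlineH, ← map_kH C, ← map_kT C, hu, hv]
  have hTab : kTab a b = famB (C H) (C T) X := by
    rw [ha, hb, ← kT_eq_kTab, hlineT, ← map_kH C, ← map_kT C, hu, hv]
  have hinj : Function.Injective (io K) := IsFractionRing.injective K[X] (RatFunc K)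
  have h30' : (30 : RatFunc K) ≠ 0 := by
    rw [← io_C_ofNat (K := K) 30]
    intro h
    have h2 := hinj (h.trans (map_zero _).symm)
    exact h30 (C_eq_zero.1 h2)
  have hw' : (io K (C w)) ^ 2 = 5 := by
    rw [← map_pow, ← C_pow, hw, io_C_ofNat]
  have hκ' : 25 * (io K (C κ)) ^ 2 = -1458 * (25 + 11 * io K (C w)) := by
    have e : (25 : K[X]) * (C κ) ^ 2 = -1458 * (25 + 11 * C w) := by
      rw [← C_pow, hκ, ← map_ofNat C 25, ← C_mul, mul_div_cancel₀ _ h25]
      simp only [map_mul, map_add, map_neg, map_ofNat]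
    have := congrArg (io K) e
    simpa only [map_mul, map_pow, map_add, map_neg, map_ofNat] using this
  have hΔ' : kHab (io K a) (io K b) ^ 3 - kTab (io K a) (io K b) ^ 2 ≠ 0 := by
    rw [← map_kHab, ← map_kTab, ← map_pow, ← map_pow, ← map_sub, hHab, hTab]
    intro h
    have h2 := hinj (h.trans (map_zero _).symm)
    have h3 := congrArg (eval 0) h2
    have eA := map_famA (evalRingHom (0 : K)) (C H) (C T) X
    have eB := map_famB (evalRingHom (0 : K)) (C H) (C T) X
    simp only [coe_evalRingHom, eval_C, eval_X] at eA eB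
    simp only [eval_sub, eval_pow, eA, eB, famA_zero, famB_zero, eval_zero] at h3
    exact hΔ h3
  have hW : IsShort (genW H T) (-27 * kHab (io K a) (io K b)) (54 * kTab (io K a) (io K b)) := by
    refine ⟨rfl, rfl, rfl, ?_, ?_⟩
    · rw [← map_kHab, hHab]
      simp only [genW, pA, map_mul, map_neg, map_ofNat]
    · rw [← map_kTab, hTab]
      simp only [genW, pB, map_mul, map_ofNat]
  obtain ⟨h, h5P⟩ := torsion_point h30' (io K a) (io K b) (io K (C w)) (io K (C κ)) hw' hκ' hΔ'
    (genW H T) hW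
  have ex : 5⁻¹ * tx5 (io K a) (io K b) (io K (C w)) = io K (C 5⁻¹ * tx5 a b (C w)) := by
    rw [map_mul, map_tx5]
    congr 1
    have : io K (C (5⁻¹ : K)) * 5 = 1 := by
      rw [← io_C_ofNat (K := K) 5, ← map_mul, ← C_mul, inv_mul_cancel₀ h5, C_1, map_one]
    exact (eq_inv_of_mul_eq_one_left this).symm
  have ey : io K (C κ) * ty2 (io K a) (io K b) (io K (C w)) = io K (C κ * ty2 a b (C w)) := by
    rw [map_mul, map_ty2]
  obtain ⟨h', e⟩ := some_congr ex ey h
  exact ⟨_, _, h', by rw [← e]; exact h5P⟩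

end generic

section abstract

theorem dvd_of_zsmul_eq_zero {G : Type*} [AddCommGroup G] (P : G) (hP : P ≠ 0)
    (h5 : (5 : ℕ) • P = 0) (k : ℤ) (hk : k • P = 0) : (5 : ℤ) ∣ k := by
  have h1 : addOrderOf P ∣ 5 := addOrderOf_dvd_of_nsmul_eq_zero h5
  have h2 : addOrderOf P = 5 := by
    rcases (Nat.dvd_prime (by norm_num)).1 h1 with h | h
    · exact absurd (AddMonoid.addOrderOf_eq_one_iff.1 h) hP
    · exact h
  have := addOrderOf_dvd_iff_zsmul_eq_zero.2 hk
  rwa [h2] at this

theorem congr_abstract {G G0 Gs : Type*} [AddCommGroup G] [AddCommGroup G0] [AddCommGroup Gs]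
    (ev0 : G →+ G0) (evs : G →+ Gs) (h0 : Function.Injective ev0) (hs : Function.Injective evs)
    (F0 : G0 →+ G0) (Fs : Gs →+ Gs) (R R' R'' : G)
    (e0 : ev0 R' = F0 (ev0 R)) (e0' : ev0 R'' = F0 (ev0 R'))
    (es : evs R' = Fs (evs R)) (es' : evs R'' = Fs (evs R'))
    (a a' l : ℤ)
    (c0 : F0 (F0 (ev0 R)) - a • F0 (ev0 R) + l • ev0 R = 0)
    (cs : Fs (Fs (evs R)) - a' • Fs (evs R) + l • evs R = 0)
    (hR' : R' ≠ 0) (h5 : (5 : ℕ) • R' = 0) : (5 : ℤ) ∣ a' - a := by
  have k0 : R'' - a • R' + l • R = 0 := by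
    apply h0
    rw [map_add, map_sub, map_zsmul, map_zsmul, map_zero, e0', e0]
    exact c0
  have ks : R'' - a' • R' + l • R = 0 := by
    apply hs
    rw [map_add, map_sub, map_zsmul, map_zsmul, map_zero, es', es]
    exact cs
  apply dvd_of_zsmul_eq_zero R' hR' h5
  have : (a' - a) • R' = (R'' - a • R' + l • R) - (R'' - a' • R' + l • R) := by
    rw [sub_smul]; abel
  rw [this, k0, ks, sub_zero]

end abstract

section frob

variable {ℓ : ℕ} [Fact ℓ.Prime] (V : WeierstrassCurve (ZMod ℓ))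
  (K : Type*) [Field K] [Algebra (ZMod ℓ) K] [DecidableEq K]

/-- conjugating the coefficients and evaluating at a rational parameter is Frobenius. -/
theorem some_eval_map_frob (px py : K[X]) (t : K)
    (ht : FiniteField.frobeniusAlgHom (ZMod ℓ) K t = t)
    (h : (V.toAffine⁄K).Nonsingular (px.eval t) (py.eval t))
    (h' : (V.toAffine⁄K).Nonsingular
      ((px.map (FiniteField.frobeniusAlgHom (ZMod ℓ) K).toRingHom).eval t)
      ((py.map (FiniteField.frobeniusAlgHom (ZMod ℓ) K).toRingHom).eval t)) :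
    (Point.some _ _ h' : (V.toAffine⁄K).Point) = frobPt V K (Point.some _ _ h) := by
  unfold frobPt
  rw [Point.map_some, Point.some.injEq]
  constructor
  · have := eval_map_apply (p := px) (FiniteField.frobeniusAlgHom (ZMod ℓ) K).toRingHom t
    rw [show (FiniteField.frobeniusAlgHom (ZMod ℓ) K).toRingHom t = t from ht] at this
    exact this
  · have := eval_map_apply (p := py) (FiniteField.frobeniusAlgHom (ZMod ℓ) K).toRingHom t
    rw [show (FiniteField.frobeniusAlgHom (ZMod ℓ) K).toRingHom t = t from ht] at this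
    exact this

end frob

theorem isShort_baseChange {k K : Type*} [CommRing k] [CommRing K] [Algebra k K] (c4 c6 : k)
    (A B : K) (hA : A = -27 * algebraMap k K c4) (hB : B = -54 * algebraMap k K c6) :
    IsShort ((shortW c4 c6).baseChange K) A B := by
  subst hA hB
  refine ⟨?_, ?_, ?_, ?_, ?_⟩ <;> simp [shortW, map_ofNat]

/-- **The congruence**, from the two line identities. -/
theorem congr_core_of_lines
    (hlineH : ∀ (R : Type) [CommRing R] (u v t : R),
      kH (lineU u v t) (lineV u v t) = famA (kH u v) (kT u v) t)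
    (hlineT : ∀ (R : Type) [CommRing R] (u v t : R),
      kT (lineU u v t) (lineV u v t) = famB (kH u v) (kT u v) t)
    (ℓ : ℕ) [Fact ℓ.Prime] (hℓ : ¬ ℓ ∣ 30) (c4 c6 s : ZMod ℓ)
    (hΔ : c4 ^ 3 - c6 ^ 2 ≠ 0)
    (hΔ' : famA c4 (-c6) s ^ 3 - famB c4 (-c6) s ^ 2 ≠ 0) :
    (5 : ℤ) ∣ (shortW (famA c4 (-c6) s) (-famB c4 (-c6) s)).traceOfFrobenius
      - (shortW c4 c6).traceOfFrobenius := by
  classical
  have h5 : 5 ≤ ℓ := by
    have hp : ℓ.Prime := Fact.out
    by_contra hlt
    push Not at hlt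
    have := hp.two_le
    interval_cases ℓ
    · exact hℓ (by norm_num)
    · exact hℓ (by norm_num)
    · exact absurd hp (by norm_num)
  set K := AlgebraicClosure (ZMod ℓ) with hK
  have hinj : Function.Injective (algebraMap (ZMod ℓ) K) := (algebraMap (ZMod ℓ) K).injective
  have h30 : (30 : K) ≠ 0 := by
    intro h0
    apply hℓ
    have : (algebraMap (ZMod ℓ) K) ((30 : ℕ) : ZMod ℓ) = 0 := by
      rw [map_natCast]; exact_mod_cast h0
    rw [map_eq_zero_iff _ hinj] at this
    exact (ZMod.natCast_eq_zero_iff 30 ℓ).1 this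
  have h78732 : (78732 : K) ≠ 0 := by
    intro h
    apply h30
    have : (30 : K) ^ 9 = 0 := by
      have e : (30 : K) ^ 9 = 78732 * 250000000 := by norm_num
      rw [e, h, zero_mul]
    exact pow_eq_zero_iff (by norm_num) |>.1 this
  set F := FiniteField.frobeniusAlgHom (ZMod ℓ) K with hF
  set φ : K →+* K := F.toRingHom with hφ
  have hφc : ∀ c : ZMod ℓ, φ (algebraMap (ZMod ℓ) K c) = algebraMap (ZMod ℓ) K c := F.commutes
  set H : K := algebraMap (ZMod ℓ) K c4 with hH
  set T : K := algebraMap (ZMod ℓ) K (-c6) with hT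
  set sb : K := algebraMap (ZMod ℓ) K s with hsb
  have hHT : H ^ 3 - T ^ 2 ≠ 0 := by
    rw [hH, hT, ← map_pow, ← map_pow, ← map_sub, neg_sq]
    exact fun h => hΔ ((map_eq_zero_iff _ hinj).1 h)
  have hHTs : famA H T sb ^ 3 - famB H T sb ^ 2 ≠ 0 := by
    rw [hH, hT, hsb, ← map_famA, ← map_famB, ← map_pow, ← map_pow, ← map_sub]
    exact fun h => hΔ' ((map_eq_zero_iff _ hinj).1 h)
  -- the generic torsion point and its conjugates
  obtain ⟨px, py, hP, h5P⟩ := exists_generic_torsion h30 H T hHT (hlineH K[X]) (hlineT K[X])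
  have hmA : (pA H T).map φ = pA H T := map_pA φ H T (hφc _) (hφc _)
  have hmB : (pB H T).map φ = pB H T := map_pB φ H T (hφc _) (hφc _)
  obtain ⟨hP', h5P'⟩ := conj_poly_torsion h30 (pA H T) (pB H T) (genW H T) (isShort_genW H T) φ
    hmA hmB hP h5P
  obtain ⟨hP'', h5P''⟩ := conj_poly_torsion h30 (pA H T) (pB H T) (genW H T) (isShort_genW H T) φ
    hmA hmB hP' h5P'
  -- the two specialisations
  have hW0 : IsShort ((shortW c4 c6).baseChange K) ((pA H T).eval 0) ((pB H T).eval 0) := by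
    apply isShort_baseChange
    · rw [eval_pA, famA_zero]
    · rw [eval_pB, famB_zero, hT, map_neg]; ring
  have hWs : IsShort ((shortW (famA c4 (-c6) s) (-famB c4 (-c6) s)).baseChange K)
      ((pA H T).eval sb) ((pB H T).eval sb) := by
    apply isShort_baseChange
    · rw [eval_pA, map_famA]
    · rw [eval_pB, map_neg, map_famB]; ring
  have hd0 : 4 * (pA H T).eval 0 ^ 3 + 27 * (pB H T).eval 0 ^ 2 ≠ 0 := by
    rw [eval_pA, eval_pB, famA_zero, famB_zero]
    have : 4 * (-27 * H) ^ 3 + 27 * (54 * T) ^ 2 = -(78732 * (H ^ 3 - T ^ 2)) := by ring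
    rw [this]
    exact neg_ne_zero.2 (mul_ne_zero h78732 hHT)
  have hds : 4 * (pA H T).eval sb ^ 3 + 27 * (pB H T).eval sb ^ 2 ≠ 0 := by
    rw [eval_pA, eval_pB]
    have : 4 * (-27 * famA H T sb) ^ 3 + 27 * (54 * famB H T sb) ^ 2
        = -(78732 * (famA H T sb ^ 3 - famB H T sb ^ 2)) := by ring
    rw [this]
    exact neg_ne_zero.2 (mul_ne_zero h78732 hHTs)
  obtain ⟨ev0, hi0, hev0⟩ := exists_spec h30 (pA H T) (pB H T) (genW H T) (isShort_genW H T) 0
    ((shortW c4 c6).baseChange K) hW0 hd0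
  obtain ⟨evs, his, hevs⟩ := exists_spec h30 (pA H T) (pB H T) (genW H T) (isShort_genW H T) sb
    ((shortW (famA c4 (-c6) s) (-famB c4 (-c6) s)).baseChange K) hWs hds
  have m : (Point.some _ _ hP : (genW H T).toAffine.Point) ∈ tor5 (genW H T).toAffine.Point :=
    (mem_tor5 _).2 h5P
  have m' : (Point.some _ _ hP' : (genW H T).toAffine.Point) ∈ tor5 (genW H T).toAffine.Point :=
    (mem_tor5 _).2 h5P'
  have m'' : (Point.some _ _ hP'' : (genW H T).toAffine.Point) ∈ tor5 (genW H T).toAffine.Point :=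
    (mem_tor5 _).2 h5P''
  obtain ⟨k0, f0⟩ := hev0 _ _ hP m
  obtain ⟨k0', f0'⟩ := hev0 _ _ hP' m'
  obtain ⟨k0'', f0''⟩ := hev0 _ _ hP'' m''
  obtain ⟨ks, fs⟩ := hevs _ _ hP m
  obtain ⟨ks', fs'⟩ := hevs _ _ hP' m'
  obtain ⟨ks'', fs''⟩ := hevs _ _ hP'' m''
  have ht0 : F 0 = 0 := map_zero F
  have hts : F sb = sb := hφc s
  refine congr_abstract ev0 evs hi0 his (frobPt (shortW c4 c6) K)
    (frobPt (shortW (famA c4 (-c6) s) (-famB c4 (-c6) s)) K)
    ⟨_, m⟩ ⟨_, m'⟩ ⟨_, m''⟩ ?_ ?_ ?_ ?_ _ _ (ℓ : ℤ) ?_ ?_ ?_ ?_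
  · rw [f0, f0']
    exact some_eval_map_frob (shortW c4 c6) K px py 0 ht0 k0 k0'
  · rw [f0', f0'']
    exact some_eval_map_frob (shortW c4 c6) K _ _ 0 ht0 k0' k0''
  · rw [fs, fs']
    exact some_eval_map_frob _ K px py sb hts ks ks'
  · rw [fs', fs'']
    exact some_eval_map_frob _ K _ _ sb hts ks' ks''
  · exact nodeA' ℓ h5 c4 c6 hΔ K _
  · exact nodeA' ℓ h5 _ _ (by rwa [neg_sq]) K _
  · intro h
    have := congrArg Subtype.val h
    exact Point.some_ne_zero _ this
  · apply Subtype.ext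
    exact h5P'

end Fermat.Agent.S52.Spec
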