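import Fermat.Agent.S52.Spec.PolyCoords

/-!
# S52, route S, node T6: conjugating a `5`-torsion point with polynomial coordinates
-/

set_option autoImplicit false
open Polynomial

namespace Fermat.Agent.S52.Spec

open WeierstrassCurve.Affine (Point)

section generic

variable {Om : Type*} [Field Om]

theorem conj_io_injective : Function.Injective (io Om) :=
  IsFractionRing.injective Om[X] (RatFunc Om)

theorem conj_b₂ {F : Type*} [CommRing F] {W : WeierstrassCurve F} {A B : F} (hW : IsShort W A B) :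
    W.b₂ = 0 := by
  simp [WeierstrassCurve.b₂, hW.a₁, hW.a₂]

theorem conj_b₄ {F : Type*} [CommRing F] {W : WeierstrassCurve F} {A B : F} (hW : IsShort W A B) :
    W.b₄ = 2 * A := by
  simp [WeierstrassCurve.b₄, hW.a₁, hW.a₄]

theorem conj_b₆ {F : Type*} [CommRing F] {W : WeierstrassCurve F} {A B : F} (hW : IsShort W A B) :
    W.b₆ = 4 * B := by
  simp [WeierstrassCurve.b₆, hW.a₃, hW.a₆]

theorem conj_b₈ {F : Type*} [CommRing F] {W : WeierstrassCurve F} {A B : F} (hW : IsShort W A B) :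
    W.b₈ = -A ^ 2 := by
  simp [WeierstrassCurve.b₈, hW.a₁, hW.a₂, hW.a₃, hW.a₄]

theorem conj_equation_iff {F : Type*} [CommRing F] {W : WeierstrassCurve F} {A B : F}
    (hW : IsShort W A B) (x y : F) :
    W.toAffine.Equation x y ↔ y ^ 2 = x ^ 3 + A * x + B := by
  rw [WeierstrassCurve.Affine.equation_iff, hW.a₁, hW.a₂, hW.a₃, hW.a₄, hW.a₆]
  constructor <;> intro h <;> linear_combination h

variable [DecidableEq (RatFunc Om)]

/-- T6 with T1 (`poly_coords`) as a hypothesis. -/
theorem conj_poly_torsion_aux (A B : Om[X]) (W : WeierstrassCurve (RatFunc Om))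
    (hW : IsShort W (io Om A) (io Om B))
    (hpc : ∀ {x y : RatFunc Om} (h : W.toAffine.Nonsingular x y),
      (5 : ℕ) • (Point.some x y h : W.toAffine.Point) = 0 →
      ∃ px py : Om[X], x = io Om px ∧ y = io Om py)
    (φ : Om →+* Om) (hA : A.map φ = A) (hB : B.map φ = B)
    {px py : Om[X]} (hP : W.toAffine.Nonsingular (io Om px) (io Om py))
    (h5P : (5 : ℕ) • (Point.some _ _ hP : W.toAffine.Point) = 0) :
    ∃ hP' : W.toAffine.Nonsingular (io Om (px.map φ)) (io Om (py.map φ)),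
      (5 : ℕ) • (Point.some _ _ hP' : W.toAffine.Point) = 0 := by
  have hinj := conj_io_injective (Om := Om)
  have i2 : io Om 2 = 2 := map_ofNat _ 2
  have i4 : io Om 4 = 4 := map_ofNat _ 4
  obtain ⟨x₂, y₂, h₂, h2P, hne, hM1, -, h12, h21⟩ := Fermat.Agent.S51.five_torsion hP h5P
  have h5Q : (5 : ℕ) • (Point.some x₂ y₂ h₂ : W.toAffine.Point) = 0 := by
    rw [← h2P, smul_comm, h5P, nsmul_zero]
  obtain ⟨qx, qy, rfl, rfl⟩ := hpc h₂ h5Q
  have hb2 : W.toAffine.b₂ = 0 := conj_b₂ hW
  have hb4 : W.toAffine.b₄ = 2 * io Om A := conj_b₄ hW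
  have hb6 : W.toAffine.b₆ = 4 * io Om B := conj_b₆ hW
  have hb8 : W.toAffine.b₈ = -(io Om A) ^ 2 := conj_b₈ hW
  rw [hb2, hb4, hb6] at hM1 h12 h21
  rw [hb8] at h12 h21
  simp only [Fermat.Agent.S51.dupM, Fermat.Agent.S51.dupN] at hM1 h12 h21
  -- the relations in `Om[X]`
  have eE : py ^ 2 = px ^ 3 + A * px + B := by
    apply hinj
    have := (conj_equation_iff hW _ _).1 hP.1
    simpa using this
  have eM : 4 * px ^ 3 + 0 * px ^ 2 + 2 * (2 * A) * px + 4 * B ≠ 0 := by
    intro h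
    apply hM1
    have := congrArg (io Om) h
    simpa [i2, i4] using this
  have e12 : px ^ 4 - 2 * A * px ^ 2 - 2 * (4 * B) * px - -A ^ 2 =
      qx * (4 * px ^ 3 + 0 * px ^ 2 + 2 * (2 * A) * px + 4 * B) := by
    apply hinj
    simpa [i2, i4] using h12
  have e21 : qx ^ 4 - 2 * A * qx ^ 2 - 2 * (4 * B) * qx - -A ^ 2 =
      px * (4 * qx ^ 3 + 0 * qx ^ 2 + 2 * (2 * A) * qx + 4 * B) := by
    apply hinj
    simpa [i2, i4] using h21
  have ene : px ≠ qx := fun h => hne (by rw [h])
  -- conjugate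
  have hΨinj : Function.Injective (Polynomial.map φ) := Polynomial.map_injective φ φ.injective
  have eE' : (py.map φ) ^ 2 = (px.map φ) ^ 3 + A * (px.map φ) + B := by
    have := congrArg (Polynomial.map φ) eE
    simpa [hA, hB] using this
  have eM' : 4 * (px.map φ) ^ 3 + 0 * (px.map φ) ^ 2 + 2 * (2 * A) * (px.map φ) + 4 * B ≠ 0 := by
    intro h
    apply eM
    apply hΨinj
    simpa [hA, hB] using h
  have e12' : (px.map φ) ^ 4 - 2 * A * (px.map φ) ^ 2 - 2 * (4 * B) * (px.map φ) - -A ^ 2 =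
      (qx.map φ) * (4 * (px.map φ) ^ 3 + 0 * (px.map φ) ^ 2 + 2 * (2 * A) * (px.map φ) + 4 * B) := by
    have := congrArg (Polynomial.map φ) e12
    simpa [hA, hB] using this
  have e21' : (qx.map φ) ^ 4 - 2 * A * (qx.map φ) ^ 2 - 2 * (4 * B) * (qx.map φ) - -A ^ 2 =
      (px.map φ) * (4 * (qx.map φ) ^ 3 + 0 * (qx.map φ) ^ 2 + 2 * (2 * A) * (qx.map φ) + 4 * B) := by
    have := congrArg (Polynomial.map φ) e21
    simpa [hA, hB] using this
  have ene' : px.map φ ≠ qx.map φ := fun h => ene (hΨinj h)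
  -- push forward
  have hEq : W.toAffine.Equation (io Om (px.map φ)) (io Om (py.map φ)) := by
    rw [conj_equation_iff hW]
    have := congrArg (io Om) eE'
    simpa using this
  have hM' : Fermat.Agent.S51.dupM W.toAffine.b₂ W.toAffine.b₄ W.toAffine.b₆ (io Om (px.map φ)) ≠ 0 := by
    rw [hb2, hb4, hb6]
    simp only [Fermat.Agent.S51.dupM]
    intro h
    apply eM'
    apply hinj
    simpa [i2, i4] using h
  have hy : io Om (py.map φ) ≠ -io Om (py.map φ) - W.toAffine.a₁ * io Om (px.map φ) - W.toAffine.a₃ := by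
    intro h
    apply hM'
    rw [← Fermat.Agent.S51.dupM_eq hEq]
    have : 2 * io Om (py.map φ) + W.toAffine.a₁ * io Om (px.map φ) + W.toAffine.a₃ = 0 := by
      linear_combination h
    rw [this]
    ring
  have hP' : W.toAffine.Nonsingular (io Om (px.map φ)) (io Om (py.map φ)) :=
    (WeierstrassCurve.Affine.nonsingular_iff _ _).2 ⟨hEq, Or.inr hy⟩
  refine ⟨hP', Fermat.Agent.S51.five_nsmul_eq_zero (x₂ := io Om (qx.map φ)) hP' hM' ?_
    (fun h => ene' (hinj h)) ?_⟩
  · rw [hb2, hb4, hb6, hb8]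
    simp only [Fermat.Agent.S51.dupM, Fermat.Agent.S51.dupN]
    have := congrArg (io Om) e12'
    simpa [i2, i4] using this
  · rw [hb2, hb4, hb6, hb8]
    simp only [Fermat.Agent.S51.dupM, Fermat.Agent.S51.dupN]
    have := congrArg (io Om) e21'
    simpa [i2, i4] using this

/-- T6 : conjugating the coefficients of a `5`-torsion point by a ring endomorphism of `Om` that
fixes the curve gives a `5`-torsion point. -/
theorem conj_poly_torsion (h30 : (30 : Om) ≠ 0) (A B : Om[X]) (W : WeierstrassCurve (RatFunc Om))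
    (hW : IsShort W (io Om A) (io Om B)) (φ : Om →+* Om) (hA : A.map φ = A) (hB : B.map φ = B)
    {px py : Om[X]} (hP : W.toAffine.Nonsingular (io Om px) (io Om py))
    (h5P : (5 : ℕ) • (Point.some _ _ hP : W.toAffine.Point) = 0) :
    ∃ hP' : W.toAffine.Nonsingular (io Om (px.map φ)) (io Om (py.map φ)),
      (5 : ℕ) • (Point.some _ _ hP' : W.toAffine.Point) = 0 :=
  conj_poly_torsion_aux A B W hW (fun h h5 => poly_coords h30 A B W hW h h5) φ hA hB hP h5P

end generic

end Fermat.Agent.S52.Spec
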