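import Fermat.Agent.S52.Interface
import Fermat.Agent.S52.Klein.AB

/-!
# S52, route S for the congruence `a_ℓ(E_s) ≡ a_ℓ(E) mod 5`: definitions

One explicit `5`-torsion point over the rational function field, and specialisation of the
`5`-torsion subgroup at two values of the parameter.
-/

set_option autoImplicit false
open Polynomial

namespace Fermat.Agent.S52.Spec

/-- the `5`-torsion subgroup of an abelian group. -/
def tor5 (G : Type*) [AddCommGroup G] : AddSubgroup G := (nsmulAddMonoidHom (α := G) 5).ker

theorem mem_tor5 {G : Type*} [AddCommGroup G] (P : G) : P ∈ tor5 G ↔ (5 : ℕ) • P = 0 :=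
  AddMonoidHom.mem_ker

/-- `W` is the short Weierstrass curve `y² = x³ + A x + B`. -/
structure IsShort {F : Type*} [CommRing F] (W : WeierstrassCurve F) (A B : F) : Prop where
  a₁ : W.a₁ = 0
  a₂ : W.a₂ = 0
  a₃ : W.a₃ = 0
  a₄ : W.a₄ = A
  a₆ : W.a₆ = B

/-- the embedding of polynomials in rational functions. -/
noncomputable abbrev io (Om : Type*) [Field Om] : Om[X] →+* RatFunc Om := algebraMap Om[X] (RatFunc Om)

section point

variable {R : Type*} [CommRing R]

/-- five times the `x`-coordinate of the explicit `5`-torsion point of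
`y² = x³ - 27 kHab a b x + 54 kTab a b`; here `w² = 5`. -/
def tx5 (a b w : R) : R := -75 * (a ^ 2 + b ^ 2) + 18 * w * kq a b

/-- twice the cubic form in the `y`-coordinate of the explicit `5`-torsion point. -/
def ty2 (a b w : R) : R :=
  2 * b ^ 3 + (-33 + 5 * w) * a * b ^ 2 + (119 - 55 * w) * a ^ 2 * b + (11 - 5 * w) * a ^ 3

end point

end Fermat.Agent.S52.Spec
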