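import Fermat.Agent.S52.Spec.Slopes

/-!
# S52, route S, task S3: `5`-torsion points stay distinct and away from the `2`-torsion after
specialisation
-/

set_option autoImplicit false
open Polynomial

namespace Fermat.Agent.S52.Spec

open WeierstrassCurve.Affine (Point)

section generic

variable {Om : Type*} [Field Om]

/-- the curve equation as an identity of polynomials. -/
theorem evalNe_equation (A B : Om[X]) (W : WeierstrassCurve (RatFunc Om))
    (hW : IsShort W (io Om A) (io Om B)) {px py : Om[X]}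
    (hP : W.toAffine.Nonsingular (io Om px) (io Om py)) :
    py ^ 2 = px ^ 3 + A * px + B := by
  have heq := (WeierstrassCurve.Affine.equation_iff _ _).1 hP.1
  rw [hW.a₁, hW.a₂, hW.a₃, hW.a₄, hW.a₆] at heq
  apply slopes_io_injective
  simp only [map_add, map_mul, map_pow]
  linear_combination heq

variable [DecidableEq (RatFunc Om)]

/-- T3a : a `5`-torsion point does not specialise to a `2`-torsion point. -/
theorem eval_y_ne_zero (h30 : (30 : Om) ≠ 0) (A B : Om[X]) (W : WeierstrassCurve (RatFunc Om))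
    (hW : IsShort W (io Om A) (io Om B)) (t0 : Om)
    (hΔ : 4 * A.eval t0 ^ 3 + 27 * B.eval t0 ^ 2 ≠ 0) {px py : Om[X]}
    (hP : W.toAffine.Nonsingular (io Om px) (io Om py))
    (h5P : (5 : ℕ) • (Point.some _ _ hP : W.toAffine.Point) = 0) : py.eval t0 ≠ 0 := by
  intro hy
  obtain ⟨m, hm, -⟩ := dbl_poly h30 A B W hW hP h5P
  have heq := evalNe_equation A B W hW hP
  have e1 := congrArg (eval t0) hm
  have e2 := congrArg (eval t0) heq
  simp only [eval_add, eval_mul, eval_pow, eval_ofNat, hy] at e1 e2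
  apply hΔ
  have hA : A.eval t0 = -3 * px.eval t0 ^ 2 := by linear_combination e1
  have hB : B.eval t0 = 2 * px.eval t0 ^ 3 := by
    rw [hA] at e2
    linear_combination -e2
  rw [hA, hB]
  ring

/-- T3b : distinct `x`-coordinates of `5`-torsion points stay distinct after specialisation. -/
theorem eval_x_ne (h30 : (30 : Om) ≠ 0) (A B : Om[X]) (W : WeierstrassCurve (RatFunc Om))
    (hW : IsShort W (io Om A) (io Om B)) (t0 : Om)
    (hΔ : 4 * A.eval t0 ^ 3 + 27 * B.eval t0 ^ 2 ≠ 0) {px py qx qy : Om[X]}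
    (hP : W.toAffine.Nonsingular (io Om px) (io Om py))
    (hQ : W.toAffine.Nonsingular (io Om qx) (io Om qy))
    (h5P : (5 : ℕ) • (Point.some _ _ hP : W.toAffine.Point) = 0)
    (h5Q : (5 : ℕ) • (Point.some _ _ hQ : W.toAffine.Point) = 0) (hne : px ≠ qx) :
    px.eval t0 ≠ qx.eval t0 := by
  intro hx
  obtain ⟨l, hl, -⟩ := add_poly h30 A B W hW hP hQ h5P h5Q hne
  obtain ⟨hQ', eQ'⟩ : ∃ hQ' : W.toAffine.Nonsingular (io Om qx) (io Om (-qy)),
      (-(Point.some _ _ hQ) : W.toAffine.Point) = Point.some _ _ hQ' := by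
    rw [Point.neg_some]
    apply slopes_some_congr rfl
    rw [WeierstrassCurve.Affine.negY, hW.a₁, hW.a₃, map_neg]
    ring
  have h5Q' : (5 : ℕ) • (Point.some _ _ hQ' : W.toAffine.Point) = 0 := by
    rw [← eQ', neg_nsmul, h5Q, neg_zero]
  obtain ⟨l', hl', -⟩ := add_poly h30 A B W hW hP hQ' h5P h5Q' hne
  have e1 := congrArg (eval t0) hl
  have e2 := congrArg (eval t0) hl'
  simp only [eval_sub, eval_mul, eval_neg, hx, sub_self, mul_zero] at e1 e2
  apply eval_y_ne_zero h30 A B W hW t0 hΔ hP h5P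
  have : 2 * py.eval t0 = 0 := by linear_combination e1 + e2
  exact (mul_eq_zero.1 this).resolve_left (slopes_two_ne_zero h30)

end generic

end Fermat.Agent.S52.Spec
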