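import Fermat.Agent.S52.Spec.Defs
import Fermat.Agent.S51.Dup

/-!
# S52, route S, task S1: `5`-torsion points over `RatFunc Om` of a curve with polynomial
coefficients have polynomial coordinates
-/

set_option autoImplicit false
open Polynomial

namespace Fermat.Agent.S52.Spec

open WeierstrassCurve.Affine (Point)

section generic

variable {Om : Type*} [Field Om]

theorem polyCoords_exists_of_isIntegral {z : RatFunc Om} (h : IsIntegral Om[X] z) :
    ∃ q : Om[X], z = io Om q := by
  obtain ⟨q, hq⟩ := (IsIntegrallyClosed.isIntegral_iff (R := Om[X]) (K := RatFunc Om)).mp h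
  exact ⟨q, hq.symm⟩

/-- T1a : `Om[X]` is integrally closed in `RatFunc Om` (square roots). -/
theorem exists_poly_of_sq (z : RatFunc Om) (p : Om[X]) (h : z ^ 2 = io Om p) :
    ∃ q : Om[X], z = io Om q := by
  apply polyCoords_exists_of_isIntegral
  have : IsIntegral Om[X] (z ^ 2) := by rw [h]; exact isIntegral_algebraMap
  exact this.of_pow (by norm_num)

/-- numerator of the duplication map, as a polynomial over `Om[X]`. -/
noncomputable def polyCoordsN (A B : Om[X]) : Om[X][X] :=
  X ^ 4 - C (2 * A) * X ^ 2 - C (8 * B) * X + C (A ^ 2)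

/-- denominator of the duplication map, as a polynomial over `Om[X]`. -/
noncomputable def polyCoordsM (A B : Om[X]) : Om[X][X] :=
  C 4 * X ^ 3 + C (4 * A) * X + C (4 * B)

/-- numerator of `D(D(x)) - x`. -/
noncomputable def polyCoordsF (A B : Om[X]) : Om[X][X] :=
  (polyCoordsN A B ^ 4 - C (2 * A) * polyCoordsN A B ^ 2 * polyCoordsM A B ^ 2
      - C (8 * B) * polyCoordsN A B * polyCoordsM A B ^ 3 + C (A ^ 2) * polyCoordsM A B ^ 4)
    - X * (C 4 * polyCoordsN A B ^ 3 * polyCoordsM A B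
      + C (4 * A) * polyCoordsN A B * polyCoordsM A B ^ 3 + C (4 * B) * polyCoordsM A B ^ 4)

theorem polyCoordsF_natDegree_le (A B : Om[X]) : (polyCoordsF A B).natDegree ≤ 16 := by
  unfold polyCoordsF polyCoordsN polyCoordsM
  compute_degree

theorem polyCoordsF_coeff (A B : Om[X]) : (polyCoordsF A B).coeff 16 = -15 := by
  unfold polyCoordsF polyCoordsN polyCoordsM
  compute_degree
  all_goals norm_num

theorem polyCoords_elim {R : Type*} [CommRing R] (a b x x₂ N M : R) (e1 : N = x₂ * M)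
    (e2 : x₂ ^ 4 - 2 * a * x₂ ^ 2 - 8 * b * x₂ + a ^ 2 = x * (4 * x₂ ^ 3 + 4 * a * x₂ + 4 * b)) :
    (N ^ 4 - 2 * a * N ^ 2 * M ^ 2 - 8 * b * N * M ^ 3 + a ^ 2 * M ^ 4)
      - x * (4 * N ^ 3 * M + 4 * a * N * M ^ 3 + 4 * b * M ^ 4) = 0 := by
  subst e1
  linear_combination M ^ 4 * e2

theorem polyCoords_isIntegral_of_rel (h30 : (30 : Om) ≠ 0) (A B : Om[X]) (x : RatFunc Om)
    (h : aeval x (polyCoordsF A B) = 0) : IsIntegral Om[X] x := by
  have h15 : (15 : Om) ≠ 0 := by
    intro h0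
    apply h30
    have : (30 : Om) = 2 * 15 := by norm_num
    rw [this, h0, mul_zero]
  have hc : (-15 : Om[X]) ≠ 0 := by
    have : (-15 : Om[X]) = C (-15 : Om) := by rw [C_neg, map_ofNat]
    rw [this]
    exact C_ne_zero.2 (neg_ne_zero.2 h15)
  have hdeg : (polyCoordsF A B).natDegree = 16 := by
    apply le_antisymm (polyCoordsF_natDegree_le A B)
    apply le_natDegree_of_ne_zero
    rw [polyCoordsF_coeff]
    exact hc
  have hlead : (polyCoordsF A B).leadingCoeff = -15 := by
    rw [leadingCoeff, hdeg, polyCoordsF_coeff]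
  have h1 := isIntegral_leadingCoeff_smul (polyCoordsF A B) x h
  rw [hlead] at h1
  have h2 : x = (C (-(15 : Om)⁻¹) : Om[X]) • ((-15 : Om[X]) • x) := by
    rw [smul_smul]
    have : (C (-(15 : Om)⁻¹) : Om[X]) * (-15 : Om[X]) = 1 := by
      have e : (-15 : Om[X]) = C (-15 : Om) := by rw [C_neg, map_ofNat]
      rw [e, ← C_mul]
      have : (-(15 : Om)⁻¹) * (-15) = 1 := by field_simp
      rw [this, C_1]
    rw [this, one_smul]
  rw [h2]
  exact h1.smul _

variable [DecidableEq (RatFunc Om)]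

/-- T1 : `5`-torsion points of a curve with polynomial coefficients have polynomial coordinates. -/
theorem poly_coords (h30 : (30 : Om) ≠ 0) (A B : Om[X]) (W : WeierstrassCurve (RatFunc Om))
    (hW : IsShort W (io Om A) (io Om B)) {x y : RatFunc Om} (h : W.toAffine.Nonsingular x y)
    (h5 : (5 : ℕ) • (Point.some x y h : W.toAffine.Point) = 0) :
    ∃ px py : Om[X], x = io Om px ∧ y = io Om py := by
  obtain ⟨x₂, y₂, h₂, -, -, hM1, hM2, e1, e2⟩ := Fermat.Agent.S51.five_torsion h h5
  have hb2 : W.toAffine.b₂ = 0 := by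
    simp [WeierstrassCurve.b₂, hW.a₁, hW.a₂]
  have hb4 : W.toAffine.b₄ = 2 * io Om A := by
    simp [WeierstrassCurve.b₄, hW.a₁, hW.a₃, hW.a₄]
  have hb6 : W.toAffine.b₆ = 4 * io Om B := by
    simp [WeierstrassCurve.b₆, hW.a₃, hW.a₆]
  have hb8 : W.toAffine.b₈ = - (io Om A) ^ 2 := by
    simp [WeierstrassCurve.b₈, hW.a₁, hW.a₂, hW.a₃, hW.a₄]
  rw [hb2, hb4, hb6] at hM1 hM2
  rw [hb2, hb4, hb6, hb8] at e1 e2
  simp only [Fermat.Agent.S51.dupN, Fermat.Agent.S51.dupM] at hM1 hM2 e1 e2
  have hx : IsIntegral Om[X] x := by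
    apply polyCoords_isIntegral_of_rel h30 A B
    simp only [polyCoordsF, polyCoordsN, polyCoordsM, map_sub, map_add, map_mul, map_pow,
      aeval_X, aeval_C, map_ofNat]
    exact polyCoords_elim (io Om A) (io Om B) x x₂ _ _ (by linear_combination e1)
      (by linear_combination e2)
  obtain ⟨px, hpx⟩ := polyCoords_exists_of_isIntegral hx
  have heq := (WeierstrassCurve.Affine.equation_iff _ _).1 h.1
  rw [hW.a₁, hW.a₂, hW.a₃, hW.a₄, hW.a₆] at heq
  obtain ⟨py, hpy⟩ := exists_poly_of_sq y (px ^ 3 + A * px + B) (by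
    simp only [map_add, map_mul, map_pow, ← hpx]
    linear_combination heq)
  exact ⟨px, py, hpx, hpy⟩

end generic

end Fermat.Agent.S52.Spec
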