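import Fermat.Agent.S52.Spec.PolyCoords

/-!
# S52, route S, task S2: chords and tangents at `5`-torsion points have polynomial slopes
-/

set_option autoImplicit false
open Polynomial

namespace Fermat.Agent.S52.Spec

open WeierstrassCurve.Affine (Point)

section field

variable {F : Type*} [Field F] [DecidableEq F]

omit [DecidableEq F] in
theorem slopes_some_congr {W : WeierstrassCurve.Affine F} {x y x' y' : F} (hx : x = x')
    (hy : y = y') (h : W.Nonsingular x y) :
    ∃ h' : W.Nonsingular x' y', (Point.some x y h : W.Point) = Point.some x' y' h' := by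
  subst hx hy
  exact ⟨h, rfl⟩

/-- chord addition on a short curve, with a given slope. -/
theorem slopes_add_short {W : WeierstrassCurve F} {A B : F} (hW : IsShort W A B)
    {x₁ y₁ x₂ y₂ l : F} (h₁ : W.toAffine.Nonsingular x₁ y₁) (h₂ : W.toAffine.Nonsingular x₂ y₂)
    (hne : x₁ ≠ x₂) (hl : y₁ - y₂ = l * (x₁ - x₂)) :
    ∃ h₃ : W.toAffine.Nonsingular (l ^ 2 - x₁ - x₂) (-(l * (l ^ 2 - x₁ - x₂ - x₁) + y₁)),
      (Point.some _ _ h₁ + Point.some _ _ h₂ : W.toAffine.Point) = Point.some _ _ h₃ := by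
  rw [Point.add_of_X_ne hne]
  have hs : W.toAffine.slope x₁ x₂ y₁ y₂ = l := by
    rw [WeierstrassCurve.Affine.slope_of_X_ne hne, div_eq_iff (sub_ne_zero.2 hne)]
    exact hl
  apply slopes_some_congr
  · rw [hs, WeierstrassCurve.Affine.addX, hW.a₁, hW.a₂]
    ring
  · rw [hs, WeierstrassCurve.Affine.addY, WeierstrassCurve.Affine.negY,
      WeierstrassCurve.Affine.negAddY, WeierstrassCurve.Affine.addX, hW.a₁, hW.a₂, hW.a₃]
    ring

/-- tangent addition on a short curve, with a given slope. -/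
theorem slopes_dbl_short {W : WeierstrassCurve F} {A B : F} (hW : IsShort W A B) (h2 : (2 : F) ≠ 0)
    {x₁ y₁ m : F} (h₁ : W.toAffine.Nonsingular x₁ y₁) (hy : y₁ ≠ 0)
    (hm : 3 * x₁ ^ 2 + A = m * (2 * y₁)) :
    ∃ h₃ : W.toAffine.Nonsingular (m ^ 2 - x₁ - x₁) (-(m * (m ^ 2 - x₁ - x₁ - x₁) + y₁)),
      (Point.some _ _ h₁ + Point.some _ _ h₁ : W.toAffine.Point) = Point.some _ _ h₃ := by
  have hneg : W.toAffine.negY x₁ y₁ = -y₁ := by
    rw [WeierstrassCurve.Affine.negY, hW.a₁, hW.a₃]; ring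
  have hy' : y₁ ≠ W.toAffine.negY x₁ y₁ := by
    rw [hneg]
    intro h
    apply hy
    have : 2 * y₁ = 0 := by linear_combination h
    exact (mul_eq_zero.1 this).resolve_left h2
  rw [Point.add_self_of_Y_ne hy']
  have hs : W.toAffine.slope x₁ x₁ y₁ y₁ = m := by
    rw [WeierstrassCurve.Affine.slope_of_Y_ne rfl hy', hneg, hW.a₁, hW.a₂, hW.a₄,
      div_eq_iff (by
        have : y₁ - -y₁ = 2 * y₁ := by ring
        rw [this]; exact mul_ne_zero h2 hy)]
    linear_combination hm
  apply slopes_some_congr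
  · rw [hs, WeierstrassCurve.Affine.addX, hW.a₁, hW.a₂]
    ring
  · rw [hs, WeierstrassCurve.Affine.addY, WeierstrassCurve.Affine.negY,
      WeierstrassCurve.Affine.negAddY, WeierstrassCurve.Affine.addX, hW.a₁, hW.a₂, hW.a₃]
    ring

/-- a `5`-torsion point of a short curve has nonzero `y`-coordinate. -/
theorem slopes_y_ne_zero {W : WeierstrassCurve F} {A B : F} (hW : IsShort W A B)
    {x₁ y₁ : F} (h₁ : W.toAffine.Nonsingular x₁ y₁)
    (h5 : (5 : ℕ) • (Point.some _ _ h₁ : W.toAffine.Point) = 0) : y₁ ≠ 0 := by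
  intro hy
  have hneg : y₁ = W.toAffine.negY x₁ y₁ := by
    rw [WeierstrassCurve.Affine.negY, hW.a₁, hW.a₃, hy]; ring
  have h2 : (Point.some _ _ h₁ + Point.some _ _ h₁ : W.toAffine.Point) = 0 :=
    Point.add_self_of_Y_eq hneg
  have : (5 : ℕ) • (Point.some _ _ h₁ : W.toAffine.Point) =
      (Point.some _ _ h₁ + Point.some _ _ h₁) + (Point.some _ _ h₁ + Point.some _ _ h₁)
        + Point.some _ _ h₁ := by
    simp only [show (5 : ℕ) = 1 + 1 + (1 + 1) + 1 from rfl, add_nsmul, one_nsmul]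
  rw [this, h2] at h5
  simp at h5

end field

section generic

variable {Om : Type*} [Field Om]

theorem slopes_io_injective : Function.Injective (io Om) :=
  IsFractionRing.injective Om[X] (RatFunc Om)

theorem slopes_two_ne_zero (h30 : (30 : Om) ≠ 0) : (2 : Om) ≠ 0 := by
  intro h0
  apply h30
  have : (30 : Om) = 2 * 15 := by norm_num
  rw [this, h0, zero_mul]

theorem slopes_two_ne_zero' (h30 : (30 : Om) ≠ 0) : (2 : RatFunc Om) ≠ 0 := by
  have : (2 : RatFunc Om) = algebraMap Om (RatFunc Om) 2 := by rw [map_ofNat]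
  rw [this]
  exact (_root_.map_ne_zero _).2 (slopes_two_ne_zero h30)

variable [DecidableEq (RatFunc Om)]

/-- T2a : the chord through two `5`-torsion points has a polynomial slope. -/
theorem add_poly (h30 : (30 : Om) ≠ 0) (A B : Om[X]) (W : WeierstrassCurve (RatFunc Om))
    (hW : IsShort W (io Om A) (io Om B)) {px py qx qy : Om[X]}
    (hP : W.toAffine.Nonsingular (io Om px) (io Om py))
    (hQ : W.toAffine.Nonsingular (io Om qx) (io Om qy))
    (h5P : (5 : ℕ) • (Point.some _ _ hP : W.toAffine.Point) = 0)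
    (h5Q : (5 : ℕ) • (Point.some _ _ hQ : W.toAffine.Point) = 0) (hne : px ≠ qx) :
    ∃ l : Om[X], py - qy = l * (px - qx) ∧
      ∃ hR : W.toAffine.Nonsingular (io Om (l ^ 2 - px - qx))
          (io Om (-(l * (l ^ 2 - px - qx - px) + py))),
        (Point.some _ _ hP + Point.some _ _ hQ : W.toAffine.Point) = Point.some _ _ hR := by
  have hne' : io Om px ≠ io Om qx := slopes_io_injective.ne hne
  have hL : io Om py - io Om qy =
      ((io Om py - io Om qy) / (io Om px - io Om qx)) * (io Om px - io Om qx) :=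
    (div_mul_cancel₀ _ (sub_ne_zero.2 hne')).symm
  obtain ⟨h₃, e⟩ := slopes_add_short hW hP hQ hne' hL
  have h5R : (5 : ℕ) • (Point.some _ _ h₃ : W.toAffine.Point) = 0 := by
    rw [← e, nsmul_add, h5P, h5Q, add_zero]
  obtain ⟨rx, -, hrx, -⟩ := poly_coords h30 A B W hW h₃ h5R
  obtain ⟨l, hl⟩ := exists_poly_of_sq ((io Om py - io Om qy) / (io Om px - io Om qx))
    (rx + px + qx) (by
      rw [map_add, map_add, ← hrx]; ring)
  rw [hl] at hL
  refine ⟨l, ?_, ?_⟩
  · apply slopes_io_injective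
    rw [map_sub, map_mul, map_sub]
    exact hL
  · obtain ⟨h₃', e'⟩ := slopes_add_short hW hP hQ hne' hL
    rw [e']
    apply slopes_some_congr
    · simp only [map_sub, map_pow]
    · simp only [map_sub, map_pow, map_neg, map_add, map_mul]

/-- T2b : the tangent at a `5`-torsion point has a polynomial slope. -/
theorem dbl_poly (h30 : (30 : Om) ≠ 0) (A B : Om[X]) (W : WeierstrassCurve (RatFunc Om))
    (hW : IsShort W (io Om A) (io Om B)) {px py : Om[X]}
    (hP : W.toAffine.Nonsingular (io Om px) (io Om py))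
    (h5P : (5 : ℕ) • (Point.some _ _ hP : W.toAffine.Point) = 0) :
    ∃ m : Om[X], 3 * px ^ 2 + A = m * (2 * py) ∧
      ∃ hR : W.toAffine.Nonsingular (io Om (m ^ 2 - px - px))
          (io Om (-(m * (m ^ 2 - px - px - px) + py))),
        (Point.some _ _ hP + Point.some _ _ hP : W.toAffine.Point) = Point.some _ _ hR := by
  have h2 := slopes_two_ne_zero' h30
  have hy : io Om py ≠ 0 := slopes_y_ne_zero hW hP h5P
  have hL : 3 * io Om px ^ 2 + io Om A =
      ((3 * io Om px ^ 2 + io Om A) / (2 * io Om py)) * (2 * io Om py) :=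
    (div_mul_cancel₀ _ (mul_ne_zero h2 hy)).symm
  obtain ⟨h₃, e⟩ := slopes_dbl_short hW h2 hP hy hL
  have h5R : (5 : ℕ) • (Point.some _ _ h₃ : W.toAffine.Point) = 0 := by
    rw [← e, nsmul_add, h5P, add_zero]
  obtain ⟨rx, -, hrx, -⟩ := poly_coords h30 A B W hW h₃ h5R
  obtain ⟨m, hm⟩ := exists_poly_of_sq ((3 * io Om px ^ 2 + io Om A) / (2 * io Om py))
    (rx + px + px) (by
      rw [map_add, map_add, ← hrx]; ring)
  rw [hm] at hL
  refine ⟨m, ?_, ?_⟩
  · apply slopes_io_injective
    simp only [map_add, map_mul, map_pow, map_ofNat]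
    exact hL
  · obtain ⟨h₃', e'⟩ := slopes_dbl_short hW h2 hP hy hL
    rw [e']
    apply slopes_some_congr
    · simp only [map_sub, map_pow]
    · simp only [map_sub, map_pow, map_neg, map_add, map_mul]

end generic

end Fermat.Agent.S52.Spec
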