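import Fermat.Agent.S52.Spec.Conj
import Fermat.Agent.S52.Spec.EvalNe

/-!
# S52, route S, node T4: the specialisation homomorphism on the `5`-torsion subgroup
-/

set_option autoImplicit false
open Polynomial

namespace Fermat.Agent.S52.Spec

open WeierstrassCurve.Affine (Point)

theorem specHom_some_congr {F : Type*} [CommRing F] {V : WeierstrassCurve.Affine F} {x x' y y' : F}
    (hx : x = x') (hy : y = y') (h : V.Nonsingular x y) (h' : V.Nonsingular x' y') :
    (Point.some x y h : V.Point) = Point.some x' y' h' := by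
  subst hx hy
  rfl

section generic

variable {Om : Type*} [Field Om]

/-- the polynomial identity behind a point with polynomial coordinates -/
theorem specHom_equation {A B : Om[X]} {W : WeierstrassCurve (RatFunc Om)}
    (hW : IsShort W (io Om A) (io Om B)) {px py : Om[X]}
    (hP : W.toAffine.Equation (io Om px) (io Om py)) : py ^ 2 = px ^ 3 + A * px + B := by
  apply conj_io_injective
  have := (conj_equation_iff hW _ _).1 hP
  simpa using this

theorem specHom_nonsingular (h30 : (30 : Om) ≠ 0) {A B : Om[X]} {W : WeierstrassCurve (RatFunc Om)}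
    (hW : IsShort W (io Om A) (io Om B)) {t0 : Om}
    {W0 : WeierstrassCurve Om} (hW0 : IsShort W0 (A.eval t0) (B.eval t0))
    (hΔ : 4 * A.eval t0 ^ 3 + 27 * B.eval t0 ^ 2 ≠ 0) {px py : Om[X]}
    (hP : W.toAffine.Nonsingular (io Om px) (io Om py)) :
    W0.toAffine.Nonsingular (px.eval t0) (py.eval t0) := by
  have h2 : (2 : Om) ≠ 0 := fun h => h30 (by linear_combination (15 : Om) * h)
  have hD : W0.toAffine.Δ ≠ 0 := by
    have : W0.Δ = -16 * (4 * A.eval t0 ^ 3 + 27 * B.eval t0 ^ 2) := by
      rw [WeierstrassCurve.Δ, conj_b₂ hW0, conj_b₄ hW0, conj_b₆ hW0, conj_b₈ hW0]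
      ring
    show W0.Δ ≠ 0
    rw [this]
    refine mul_ne_zero ?_ hΔ
    have : (-16 : Om) = -(2 ^ 4) := by norm_num
    rw [this]
    exact neg_ne_zero.2 (pow_ne_zero 4 h2)
  rw [← WeierstrassCurve.Affine.equation_iff_nonsingular_of_Δ_ne_zero hD, conj_equation_iff hW0]
  have := congrArg (Polynomial.eval t0) (specHom_equation hW hP.1)
  simpa using this

open Classical in
/-- the specialisation map on points with polynomial coordinates (junk value `0` elsewhere) -/
noncomputable def specFun (W : WeierstrassCurve (RatFunc Om)) (W0 : WeierstrassCurve Om) (t0 : Om)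
    (P : W.toAffine.Point) : W0.toAffine.Point :=
  if h : ∃ (px py : Om[X]) (_ : W0.toAffine.Nonsingular (px.eval t0) (py.eval t0))
      (hP : W.toAffine.Nonsingular (io Om px) (io Om py)), P = Point.some _ _ hP
  then Point.some _ _ h.choose_spec.choose_spec.choose else 0

theorem specFun_zero (W : WeierstrassCurve (RatFunc Om)) (W0 : WeierstrassCurve Om) (t0 : Om) :
    specFun W W0 t0 0 = 0 := by
  rw [specFun, dif_neg]
  rintro ⟨px, py, h0, hP, h⟩
  exact Point.some_ne_zero _ h.symm

theorem specFun_some (W : WeierstrassCurve (RatFunc Om)) (W0 : WeierstrassCurve Om) (t0 : Om)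
    {px py : Om[X]} (hP : W.toAffine.Nonsingular (io Om px) (io Om py))
    (h0 : W0.toAffine.Nonsingular (px.eval t0) (py.eval t0)) :
    specFun W W0 t0 (Point.some _ _ hP) = Point.some _ _ h0 := by
  have h : ∃ (px' py' : Om[X]) (_ : W0.toAffine.Nonsingular (px'.eval t0) (py'.eval t0))
      (hP' : W.toAffine.Nonsingular (io Om px') (io Om py')),
      (Point.some _ _ hP : W.toAffine.Point) = Point.some _ _ hP' := ⟨px, py, h0, hP, rfl⟩
  rw [specFun, dif_pos h]
  obtain ⟨hP', e⟩ := h.choose_spec.choose_spec.choose_spec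
  rw [Point.some.injEq] at e
  have e1 : px = h.choose := conj_io_injective e.1
  have e2 : py = h.choose_spec.choose := conj_io_injective e.2
  exact specHom_some_congr (by rw [← e1]) (by rw [← e2]) _ _

variable [DecidableEq (RatFunc Om)]

/-- the statements of the nodes T1, T2a, T2b, T3a, T3b for a fixed curve and parameter value -/
structure SpecHyp (A B : Om[X]) (W : WeierstrassCurve (RatFunc Om)) (t0 : Om) : Prop where
  pc : ∀ {x y : RatFunc Om} (h : W.toAffine.Nonsingular x y),
    (5 : ℕ) • (Point.some x y h : W.toAffine.Point) = 0 →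
    ∃ px py : Om[X], x = io Om px ∧ y = io Om py
  add : ∀ {px py qx qy : Om[X]}
    (hP : W.toAffine.Nonsingular (io Om px) (io Om py))
    (hQ : W.toAffine.Nonsingular (io Om qx) (io Om qy)),
    (5 : ℕ) • (Point.some _ _ hP : W.toAffine.Point) = 0 →
    (5 : ℕ) • (Point.some _ _ hQ : W.toAffine.Point) = 0 → px ≠ qx →
    ∃ l : Om[X], py - qy = l * (px - qx) ∧
      ∃ hR : W.toAffine.Nonsingular (io Om (l ^ 2 - px - qx))
          (io Om (-(l * (l ^ 2 - px - qx - px) + py))),
        (Point.some _ _ hP + Point.some _ _ hQ : W.toAffine.Point) = Point.some _ _ hR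
  dbl : ∀ {px py : Om[X]}
    (hP : W.toAffine.Nonsingular (io Om px) (io Om py)),
    (5 : ℕ) • (Point.some _ _ hP : W.toAffine.Point) = 0 →
    ∃ m : Om[X], 3 * px ^ 2 + A = m * (2 * py) ∧
      ∃ hR : W.toAffine.Nonsingular (io Om (m ^ 2 - px - px))
          (io Om (-(m * (m ^ 2 - px - px - px) + py))),
        (Point.some _ _ hP + Point.some _ _ hP : W.toAffine.Point) = Point.some _ _ hR
  yne : ∀ {px py : Om[X]} (hP : W.toAffine.Nonsingular (io Om px) (io Om py)),
    (5 : ℕ) • (Point.some _ _ hP : W.toAffine.Point) = 0 → py.eval t0 ≠ 0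
  xne : ∀ {px py qx qy : Om[X]}
    (hP : W.toAffine.Nonsingular (io Om px) (io Om py))
    (hQ : W.toAffine.Nonsingular (io Om qx) (io Om qy)),
    (5 : ℕ) • (Point.some _ _ hP : W.toAffine.Point) = 0 →
    (5 : ℕ) • (Point.some _ _ hQ : W.toAffine.Point) = 0 → px ≠ qx →
    px.eval t0 ≠ qx.eval t0

variable [DecidableEq Om]

theorem specFun_add (h30 : (30 : Om) ≠ 0) (A B : Om[X])
    (W : WeierstrassCurve (RatFunc Om)) (hW : IsShort W (io Om A) (io Om B)) (t0 : Om)
    (W0 : WeierstrassCurve Om) (hW0 : IsShort W0 (A.eval t0) (B.eval t0))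
    (hΔ : 4 * A.eval t0 ^ 3 + 27 * B.eval t0 ^ 2 ≠ 0) (H : SpecHyp A B W t0)
    (P Q : W.toAffine.Point) (hP5 : (5 : ℕ) • P = 0) (hQ5 : (5 : ℕ) • Q = 0) :
    specFun W W0 t0 (P + Q) = specFun W W0 t0 P + specFun W W0 t0 Q := by
  have h2 : (2 : Om) ≠ 0 := fun h => h30 (by linear_combination (15 : Om) * h)
  rcases P with _ | ⟨x₁, y₁, hP⟩
  · show specFun W W0 t0 (0 + Q) = specFun W W0 t0 0 + specFun W W0 t0 Q
    rw [specFun_zero, zero_add, zero_add]
  rcases Q with _ | ⟨x₂, y₂, hQ⟩
  · show specFun W W0 t0 (_ + 0) = specFun W W0 t0 _ + specFun W W0 t0 0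
    rw [specFun_zero, add_zero, add_zero]
  obtain ⟨px, py, rfl, rfl⟩ := H.pc hP hP5
  obtain ⟨qx, qy, rfl, rfl⟩ := H.pc hQ hQ5
  have hP0 := specHom_nonsingular h30 hW hW0 hΔ hP
  have hQ0 := specHom_nonsingular h30 hW hW0 hΔ hQ
  rw [specFun_some W W0 t0 hP hP0, specFun_some W W0 t0 hQ hQ0]
  by_cases hx : px = qx
  · subst hx
    have e1 := specHom_equation hW hP.1
    have e2 := specHom_equation hW hQ.1
    have hsq : (py - qy) * (py + qy) = 0 := by linear_combination e1 - e2
    rcases mul_eq_zero.1 hsq with hy | hy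
    · -- doubling
      obtain rfl : py = qy := sub_eq_zero.1 hy
      obtain ⟨m, hm, hR, hadd⟩ := H.dbl hP hP5
      have hR0 := specHom_nonsingular h30 hW hW0 hΔ hR
      have hy0 : py.eval t0 ≠ 0 := H.yne hP hP5
      rw [hadd, specFun_some W W0 t0 hR hR0]
      have hne : py.eval t0 ≠ W0.toAffine.negY (px.eval t0) (py.eval t0) := by
        rw [WeierstrassCurve.Affine.negY, hW0.a₁, hW0.a₃]
        intro h
        apply mul_ne_zero h2 hy0
        linear_combination h
      rw [Point.add_self_of_Y_ne hne]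
      have hm0 : 3 * px.eval t0 ^ 2 + A.eval t0 = m.eval t0 * (2 * py.eval t0) := by
        have := congrArg (Polynomial.eval t0) hm
        simpa using this
      have hslope : W0.toAffine.slope (px.eval t0) (px.eval t0) (py.eval t0) (py.eval t0) =
          m.eval t0 := by
        rw [WeierstrassCurve.Affine.slope_of_Y_ne rfl hne, WeierstrassCurve.Affine.negY,
          hW0.a₁, hW0.a₂, hW0.a₃, hW0.a₄, div_eq_iff (by
            intro h
            apply mul_ne_zero h2 hy0
            linear_combination h)]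
        linear_combination hm0
      refine specHom_some_congr ?_ ?_ _ _
      · rw [hslope, WeierstrassCurve.Affine.addX, hW0.a₁, hW0.a₂]
        simp
      · rw [hslope, WeierstrassCurve.Affine.addY, WeierstrassCurve.Affine.negY,
          WeierstrassCurve.Affine.negAddY, WeierstrassCurve.Affine.addX, hW0.a₁, hW0.a₂, hW0.a₃]
        simp
    · -- opposite points
      have hy' : py = -qy := by linear_combination hy
      subst hy'
      have h1 : (Point.some _ _ hP + Point.some _ _ hQ : W.toAffine.Point) = 0 := by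
        apply Point.add_of_Y_eq rfl
        rw [WeierstrassCurve.Affine.negY, hW.a₁, hW.a₃]
        simp
      have h2' : (Point.some _ _ hP0 + Point.some _ _ hQ0 : W0.toAffine.Point) = 0 := by
        apply Point.add_of_Y_eq rfl
        rw [WeierstrassCurve.Affine.negY, hW0.a₁, hW0.a₃]
        simp
      rw [h1, h2', specFun_zero]
  · obtain ⟨l, hl, hR, hadd⟩ := H.add hP hQ hP5 hQ5 hx
    have hR0 := specHom_nonsingular h30 hW hW0 hΔ hR
    have hx0 : px.eval t0 ≠ qx.eval t0 := H.xne hP hQ hP5 hQ5 hx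
    rw [hadd, specFun_some W W0 t0 hR hR0, Point.add_of_X_ne hx0]
    have hl0 : py.eval t0 - qy.eval t0 = l.eval t0 * (px.eval t0 - qx.eval t0) := by
      have := congrArg (Polynomial.eval t0) hl
      simpa using this
    have hslope : W0.toAffine.slope (px.eval t0) (qx.eval t0) (py.eval t0) (qy.eval t0) =
        l.eval t0 := by
      rw [WeierstrassCurve.Affine.slope_of_X_ne hx0, div_eq_iff (sub_ne_zero.2 hx0)]
      exact hl0
    refine specHom_some_congr ?_ ?_ _ _
    · rw [hslope, WeierstrassCurve.Affine.addX, hW0.a₁, hW0.a₂]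
      simp
    · rw [hslope, WeierstrassCurve.Affine.addY, WeierstrassCurve.Affine.negY,
        WeierstrassCurve.Affine.negAddY, WeierstrassCurve.Affine.addX, hW0.a₁, hW0.a₂, hW0.a₃]
      simp

/-- T4 with the nodes T1-T3 as hypotheses. -/
theorem exists_spec_aux (h30 : (30 : Om) ≠ 0) (A B : Om[X])
    (W : WeierstrassCurve (RatFunc Om)) (hW : IsShort W (io Om A) (io Om B)) (t0 : Om)
    (W0 : WeierstrassCurve Om) (hW0 : IsShort W0 (A.eval t0) (B.eval t0))
    (hΔ : 4 * A.eval t0 ^ 3 + 27 * B.eval t0 ^ 2 ≠ 0) (H : SpecHyp A B W t0) :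
    ∃ ev : tor5 W.toAffine.Point →+ W0.toAffine.Point, Function.Injective ev ∧
      ∀ (px py : Om[X]) (hP : W.toAffine.Nonsingular (io Om px) (io Om py))
        (h5 : (Point.some _ _ hP : W.toAffine.Point) ∈ tor5 W.toAffine.Point),
        ∃ h0 : W0.toAffine.Nonsingular (px.eval t0) (py.eval t0),
          ev ⟨Point.some _ _ hP, h5⟩ = Point.some _ _ h0 := by
  let ev : tor5 W.toAffine.Point →+ W0.toAffine.Point :=
    AddMonoidHom.mk' (fun P => specFun W W0 t0 P.1) (fun P Q =>
      specFun_add h30 A B W hW t0 W0 hW0 hΔ H P.1 Q.1 ((mem_tor5 _).1 P.2) ((mem_tor5 _).1 Q.2))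
  refine ⟨ev, ?_, ?_⟩
  · rw [injective_iff_map_eq_zero]
    rintro ⟨P, hP5⟩ h0
    rcases P with _ | ⟨x, y, hP⟩
    · rfl
    · exfalso
      obtain ⟨px, py, rfl, rfl⟩ := H.pc hP ((mem_tor5 _).1 hP5)
      have h1 : specFun W W0 t0 (Point.some _ _ hP) = 0 := h0
      rw [specFun_some W W0 t0 hP (specHom_nonsingular h30 hW hW0 hΔ hP)] at h1
      exact Point.some_ne_zero _ h1
  · intro px py hP h5
    exact ⟨specHom_nonsingular h30 hW hW0 hΔ hP, specFun_some W W0 t0 hP _⟩

/-- T4 : the specialisation homomorphism on the `5`-torsion subgroup. -/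
theorem exists_spec (h30 : (30 : Om) ≠ 0) (A B : Om[X])
    (W : WeierstrassCurve (RatFunc Om)) (hW : IsShort W (io Om A) (io Om B)) (t0 : Om)
    (W0 : WeierstrassCurve Om) (hW0 : IsShort W0 (A.eval t0) (B.eval t0))
    (hΔ : 4 * A.eval t0 ^ 3 + 27 * B.eval t0 ^ 2 ≠ 0) :
    ∃ ev : tor5 W.toAffine.Point →+ W0.toAffine.Point, Function.Injective ev ∧
      ∀ (px py : Om[X]) (hP : W.toAffine.Nonsingular (io Om px) (io Om py))
        (h5 : (Point.some _ _ hP : W.toAffine.Point) ∈ tor5 W.toAffine.Point),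
        ∃ h0 : W0.toAffine.Nonsingular (px.eval t0) (py.eval t0),
          ev ⟨Point.some _ _ hP, h5⟩ = Point.some _ _ h0 :=
  exists_spec_aux h30 A B W hW t0 W0 hW0 hΔ
    { pc := fun h h5 => poly_coords h30 A B W hW h h5
      add := fun hP hQ h5P h5Q hne => add_poly h30 A B W hW hP hQ h5P h5Q hne
      dbl := fun hP h5P => dbl_poly h30 A B W hW hP h5P
      yne := fun hP h5P => eval_y_ne_zero h30 A B W hW t0 hΔ hP h5P
      xne := fun hP hQ h5P h5Q hne => eval_x_ne h30 A B W hW t0 hΔ hP hQ h5P h5Q hne }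

end generic

end Fermat.Agent.S52.Spec
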